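import Fermat.Agent.SS.Mod.Lift
import Fermat.Agent.SS.Nodal.Main

/-!
# SS / H1C / New : (C1), abstract part : charts   [WP  C1-CHART-ABS]

* (N3) `mapDomain_eq_of_P1` : `G ∈ R.O` a unit, `div G = E' - E`, `E, E' ≥ 0`,
  `deg E = deg (red G)_∞`  ⟹  `r_* E = (red G)_∞` and `r_* E' = (red G)_0 = (1 / red G)_∞`.
  PROOF (same trick as `SS.mapDomain_polarDiv_of_P1`, `SS/Mod/Lift.lean`).  By (P1) applied to `D := E' - E` :
  `r_*E' Q - r_*E Q = Q.ord (red G)` (`Finsupp.mapDomain_sub`/`mapDomain_add`), `r_*E, r_*E' ≥ 0`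
  (`mapDomain_apply_nonneg`).  So `(red G)_∞ Q = max (- ord) 0 ≤ r_*E Q`; both sides have the same degree
  (`degree_mapDomain_of_deg_eq_one`), so they are equal (`hb.eq_zero_of_degree_eq_zero`).  Then
  `r_*E' = r_*E + div (red G) = (1 / red G)_∞` by `nm_polarDiv_inv_sub`.
* (PG) `polarDiv_mul_sub` : `((t - a)(t ^ q - b))_∞ = (q + 1) (t)_∞`.
  PROOF. pointwise: if `Q.ord t < 0` then `ord (t - a) = ord t`, `ord (t ^ q - b) = q ord t`
  (`ord_sub_algebraMap_of_neg`), else both factors have `ord ≥ 0` (`nm_ord_sub_nonneg`); both factors `≠ 0`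
  because `t` is transcendental (`hb.transcendental`).
* (FIN) `mem_L_of_add` : `w = g + g'`, `w ∈ L(a P + b P')`, `g ∈ L(a' P)`, `g' ∈ L(Z)`, `Z ≥ 0` disjoint from `P`,
  `P`, `P' ≥ 0` disjoint  ⟹  `g' ∈ L(b P')`.
  PROOF. `g' = 0` trivial.  At `Q` with `P Q > 0` : `Z Q = 0 = P' Q`, `ord g' ≥ 0`.  At `Q` with `P Q = 0` :
  `ord g ≥ 0 ≥ - b P' Q`, `ord w ≥ - b P' Q`, `g' = w - g` (`Place.ord_add`-type inequality; beware of the cases `w = 0`, `g = 0`).
-/

set_option autoImplicit false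
set_option linter.unusedSectionVars false

open AlgebraicCurve

namespace Fermat.Agent.SS

open Fermat.Agent.RED Fermat.Agent.S24

variable {K F k Fb : Type*} [Field K] [Field F] [Algebra K F] [Field k] [Field Fb] [Algebra k Fb]
  [IsAlgClosed K] [IsAlgClosed k] {x : F} {t : Fb}

/-- (N3) -/
theorem mapDomain_eq_of_P1 (R : RedData K F k Fb) (r : Place K F → Place k Fb)
    (hP1 : ∀ (x : R.O), R.red x ≠ 0 → ∀ D : Divisor K F, (∀ v : Place K F, D v = v.ord (x : F)) →
      ∀ Q : Place k Fb, (D.mapDomain r) Q = Q.ord (R.red x))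
    (hx : IsSepParam K x) (hb : IsSepParam k t) (G : R.O) (hG : R.red G ≠ 0)
    {E E' : Divisor K F} (hE : 0 ≤ E) (hE' : 0 ≤ E')
    (hdiv : ∀ v : Place K F, v.ord (G : F) = E' v - E v)
    (hdeg : Divisor.degree E = Divisor.degree (polarDiv k (R.red G))) :
    E.mapDomain r = polarDiv k (R.red G) ∧ E'.mapDomain r = polarDiv k (R.red G)⁻¹ := by
  have hsub : ∀ Q, E'.mapDomain r Q - E.mapDomain r Q = Q.ord (R.red G) := by
    intro Q
    have := hP1 G hG (E' - E) (fun v => by rw [Finsupp.sub_apply, hdiv]) Q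
    rwa [Finsupp.mapDomain_sub, Finsupp.sub_apply] at this
  have hEn : ∀ Q, 0 ≤ E.mapDomain r Q := fun Q => mapDomain_apply_nonneg r _ Q fun P _ => hE P
  have hEn' : ∀ Q, 0 ≤ E'.mapDomain r Q := fun Q => mapDomain_apply_nonneg r _ Q fun P _ => hE' P
  have hle : polarDiv k (R.red G) ≤ E.mapDomain r := by
    intro Q
    rw [hb.polarDiv_apply]
    refine max_le ?_ (hEn Q)
    have h1 := hsub Q
    have h2 := hEn' Q
    omega
  have hd : Divisor.degree (E.mapDomain r - polarDiv k (R.red G)) = 0 := by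
    rw [map_sub, degree_mapDomain_of_deg_eq_one r hx.deg_eq_one hb.deg_eq_one, hdeg, sub_self]
  have h1 : E.mapDomain r = polarDiv k (R.red G) :=
    sub_eq_zero.mp (hb.eq_zero_of_degree_eq_zero (sub_nonneg.mpr hle) hd)
  refine ⟨h1, ?_⟩
  ext Q
  have h2 := hsub Q
  have h3 := DFunLike.congr_fun (nm_polarDiv_inv_sub hb (R.red G)) Q
  rw [Finsupp.sub_apply, hb.dv_apply] at h3
  rw [h1] at h2
  omega

/-- (PG) -/
theorem polarDiv_mul_sub (hb : IsSepParam k t) (q : ℕ) (hq : 0 < q) (a b : k) :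
    polarDiv k ((t - algebraMap k Fb a) * (t ^ q - algebraMap k Fb b)) = (q + 1) • polarDiv k t := by
  have h1 : t - algebraMap k Fb a ≠ 0 := by
    intro h0
    apply hb.transcendental
    rw [sub_eq_zero.1 h0]
    exact isAlgebraic_algebraMap a
  have h2 : t ^ q - algebraMap k Fb b ≠ 0 := by
    intro h0
    apply hb.transcendental
    have h3 : IsAlgebraic k (t ^ q) := by
      rw [sub_eq_zero.1 h0]
      exact isAlgebraic_algebraMap b
    exact (IsAlgebraic.of_pow hq h3)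
  ext Q
  rw [Finsupp.smul_apply, hb.polarDiv_apply, hb.polarDiv_apply, Q.ord_mul h1 h2, nsmul_eq_mul]
  have hpow : Q.ord (t ^ q) = (q : ℤ) * Q.ord t := by
    rw [← zpow_natCast, Place.ord_zpow]
  have hq' : (0 : ℤ) < q := by exact_mod_cast hq
  rcases lt_or_ge (Q.ord t) 0 with h | h
  · have h3 : Q.ord (t ^ q) < 0 := by rw [hpow]; exact mul_neg_of_pos_of_neg hq' h
    rw [ord_sub_algebraMap_of_neg Q h, ord_sub_algebraMap_of_neg Q h3, hpow,
      max_eq_left (a := -Q.ord t) (by omega),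
      max_eq_left (by
        have : (q : ℤ) * Q.ord t < 0 := mul_neg_of_pos_of_neg hq' h
        omega)]
    push_cast
    ring
  · have h3 : 0 ≤ Q.ord (t ^ q) := by rw [hpow]; exact mul_nonneg hq'.le h
    have h4 := nm_ord_sub_nonneg Q h a
    have h5 := nm_ord_sub_nonneg Q h3 b
    rw [max_eq_right (a := -Q.ord t) (by omega), max_eq_right (by omega), mul_zero]

/-- the polar divisors of `f` and `1 / f` are disjoint -/
theorem polarDiv_disj_inv (hb : IsSepParam k t) (f : Fb) (Q : Place k Fb) :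
    polarDiv k f Q = 0 ∨ polarDiv k f⁻¹ Q = 0 := by
  rw [hb.polarDiv_apply, hb.polarDiv_apply, Place.ord_inv]
  rcases lt_or_ge (Q.ord f) 0 with h | h
  · right
    exact max_eq_right (by omega)
  · left
    exact max_eq_right (by omega)

/-- (FIN) -/
theorem mem_L_of_add (hb : IsSepParam k t) {P P' Z : Divisor k Fb} (hP : 0 ≤ P) (hP' : 0 ≤ P')
    (hZ : 0 ≤ Z) (hd : ∀ Q, P Q = 0 ∨ P' Q = 0) (hdZ : ∀ Q, P Q = 0 ∨ Z Q = 0) {a b a' : ℕ}
    {w g g' : Fb} (hw : w ∈ riemannRochSpace (a • P + b • P')) (hg : g ∈ riemannRochSpace (a' • P))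
    (hg' : g' ∈ riemannRochSpace Z) (h : w = g + g') : g' ∈ riemannRochSpace (b • P') := by
  rcases eq_or_ne g' 0 with rfl | hg0
  · exact Submodule.zero_mem _
  rw [mem_L_iff_of_ne_zero hg0] at hg' ⊢
  intro Q
  rw [Finsupp.smul_apply, nsmul_eq_mul]
  have hbP : (0 : ℤ) ≤ (b : ℤ) * P' Q := mul_nonneg (Int.natCast_nonneg b) (hP' Q)
  by_cases hPQ : P Q = 0
  · -- `g` is regular at `Q`, `w` has a pole of order at most `b P' Q`
    have e : g' = w - g := by rw [h]; ring
    have hgQ : g = 0 ∨ 0 ≤ Q.ord g := by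
      rcases eq_or_ne g 0 with rfl | hg1
      · exact Or.inl rfl
      · right
        rw [mem_L_iff_of_ne_zero hg1] at hg
        have := hg Q
        rwa [Finsupp.smul_apply, hPQ, smul_zero, add_zero] at this
    have hwQ : w = 0 ∨ 0 ≤ Q.ord w + (b : ℤ) * P' Q := by
      rcases eq_or_ne w 0 with rfl | hw1
      · exact Or.inl rfl
      · right
        rw [mem_L_iff_of_ne_zero hw1] at hw
        have := hw Q
        rwa [Finsupp.add_apply, Finsupp.smul_apply, Finsupp.smul_apply, hPQ, smul_zero, zero_add,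
          nsmul_eq_mul] at this
    rcases eq_or_ne g 0 with rfl | hg1
    · rw [sub_zero] at e
      rcases hwQ with rfl | hwQ
      · exact absurd e hg0
      · rw [e]; exact hwQ
    have hgQ' : 0 ≤ Q.ord g := hgQ.resolve_left hg1
    rcases eq_or_ne w 0 with rfl | hw1
    · rw [zero_sub] at e
      rw [e, Place.ord_neg]
      omega
    · have hwQ' := hwQ.resolve_left hw1
      have hmin : min (Q.ord w) (Q.ord (-g)) ≤ Q.ord (w + -g) := by
        apply Place.ord_add_ge Q hw1 (neg_ne_zero.2 hg1)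
        rw [← sub_eq_add_neg, ← e]
        exact hg0
      rw [← sub_eq_add_neg, ← e, Place.ord_neg] at hmin
      rcases min_le_iff.1 hmin with h1 | h1 <;> omega
  · have hZQ : Z Q = 0 := (hdZ Q).resolve_left hPQ
    have := hg' Q
    rw [hZQ, add_zero] at this
    omega

end Fermat.Agent.SS
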