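import Fermat.Agent.SS.Mod.Lift
import Fermat.Agent.SS.Abs.MatchDim

/-!
# SS / H1C / New : (C1), abstract part for ONE valuation with good reduction  [WP  C1-SAT]

`R : RedData K F k Fb` (constant reduction of `F / K`), `on` : reduction does not lose dimension,
`r : Place K F → Place k Fb` with (P1) : `r_* div x = div (red x)` for the units `x` of `R.O`.

* (N1) `RedData.redSub_sup_of_on` : (SAT) `redSub (V₁ ⊔ V₂) = redSub V₁ ⊔ redSub V₂` as soon as
  `dim (redSub V₁ ⊓ redSub V₂) ≤ dim (V₁ ⊓ V₂)`.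
  PROOF (dimension count, identical to `TwoRed.redSub_sup` of `SS/H1/Sat.lean`): `≥` is monotonicity.
  `dim redSub V = dim V` for all finite dimensional `V` (`on` + `R.finrank_redSub_le`).  Hence
  `dim (redSub V₁ ⊔ redSub V₂) = d₁ + d₂ - dim (redSub V₁ ⊓ redSub V₂) ≥ d₁ + d₂ - dim (V₁ ⊓ V₂)
  = dim (V₁ ⊔ V₂) = dim redSub (V₁ ⊔ V₂)` (`Submodule.finrank_sup_add_finrank_inf_eq`), conclude by
  `Submodule.eq_of_le_of_finrank_le`.
* (N2) `RedData.redSub_L_le` : pole bound `redSub L(E) ≤ L(r_* E)`.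
  PROOF. `u ∈ L(E) ∩ O`, `red u ≠ 0`; `D := dv K u` (`hx.dv_apply`), `D + E ≥ 0`, so
  `0 ≤ (D + E).mapDomain r Q = Q.ord (red u) + (E.mapDomain r) Q` (`hP1`, `Finsupp.mapDomain_add`,
  `mapDomain_apply_nonneg`).
* (N4) `RedData.red_mem_sup_of_sub` : `y₁ ∈ L(E₁) ∩ O`, `y₂ ∈ L(E₂) ∩ O`, `y₁ - y₂ = c z`, `z ∈ O`,
  `r_* E₁`, `r_* E₂` disjoint, `E_i ≥ 0` ⟹ `red z ∈ L(r_* E₁) + L(r_* E₂)`.
  PROOF. `z = c⁻¹ (y₁ - y₂) ∈ L(E₁) ⊔ L(E₂)`, so `red z ∈ redSub (V₁ ⊔ V₂) = redSub V₁ ⊔ redSub V₂`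
  by (N1), then (N2).  Hypothesis of (N1): `redSub V₁ ⊓ redSub V₂ ≤ L(r_*E₁) ⊓ L(r_*E₂) ≤ L(0)`
  (`mem_L_min`), `dim L(0) = 1` (`hb.finrank_L_zero` or `L(0) = k`), and `1 ∈ V₁ ⊓ V₂`.
* (N5) `RedData.red_mem_sup_of_mul` : the same with `y_i = h₀ N_i`, `red N_i = 1`, `h₀ ∈ F^×` arbitrary.
  PROOF. Scale: `c₀ h₀ ∈ O`, `hb₀ := red (c₀ h₀) ≠ 0` (`R.exists_scale`).  `red (c₀ h₀ N_i) = hb₀` lies in
  `L(r_*E₁) ⊓ L(r_*E₂) = k` by (N2): `hb₀` is a nonzero constant.  (N4) for `z = c₀ h₀ φ` gives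
  `hb₀ * red φ ∈ L ⊔ L`; divide by the constant.
-/

set_option autoImplicit false
set_option linter.unusedSectionVars false

open AlgebraicCurve

namespace Fermat.Agent.SS

open Fermat.Agent.RED Fermat.Agent.S24

variable {K F k Fb : Type*} [Field K] [Field F] [Algebra K F] [Field k] [Field Fb] [Algebra k Fb]
  [IsAlgClosed K] [IsAlgClosed k] {x : F} {t : Fb}

/-- (N1) **(SAT)** for one valuation -/
theorem RedData.redSub_sup_of_on (R : RedData K F k Fb)
    (on : ∀ V : Submodule K F, FiniteDimensional K V →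
      Module.finrank K V ≤ Module.finrank k (R.redSub V))
    (V₁ V₂ : Submodule K F) [FiniteDimensional K V₁] [FiniteDimensional K V₂]
    (h : Module.finrank k ↥(R.redSub V₁ ⊓ R.redSub V₂) ≤ Module.finrank K ↥(V₁ ⊓ V₂)) :
    R.redSub (V₁ ⊔ V₂) = R.redSub V₁ ⊔ R.redSub V₂ := by
  have := (R.finrank_redSub_le V₁).1
  have := (R.finrank_redSub_le V₂).1
  have := (R.finrank_redSub_le (V₁ ⊔ V₂)).1
  have heq : ∀ (V : Submodule K F) [FiniteDimensional K V],
      Module.finrank k (R.redSub V) = Module.finrank K V := fun V _ =>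
    le_antisymm (R.finrank_redSub_le V).2 (on V inferInstance)
  symm
  apply Submodule.eq_of_le_of_finrank_le
    (sup_le (R.redSub_mono le_sup_left) (R.redSub_mono le_sup_right))
  have e1 := Submodule.finrank_sup_add_finrank_inf_eq V₁ V₂
  have e2 := Submodule.finrank_sup_add_finrank_inf_eq (R.redSub V₁) (R.redSub V₂)
  rw [heq V₁, heq V₂] at e2
  rw [heq (V₁ ⊔ V₂)]
  omega

/-- (N2) pole bound -/
theorem RedData.redSub_L_le (R : RedData K F k Fb) (r : Place K F → Place k Fb)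
    (hP1 : ∀ (x : R.O), R.red x ≠ 0 → ∀ D : Divisor K F, (∀ v : Place K F, D v = v.ord (x : F)) →
      ∀ Q : Place k Fb, (D.mapDomain r) Q = Q.ord (R.red x))
    (hx : IsSepParam K x) (hb : IsSepParam k t) (E : Divisor K F) :
    R.redSub (riemannRochSpace E) ≤ riemannRochSpace (E.mapDomain r) := by
  rintro u ⟨y, hy, rfl⟩
  rcases eq_or_ne (R.red y) 0 with h0 | h0
  · rw [h0]; exact Submodule.zero_mem _
  have hy0 : (y : F) ≠ 0 := by
    intro h
    apply h0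
    have : y = 0 := Subtype.ext h
    rw [this, map_zero]
  rw [mem_L_iff_of_ne_zero h0]
  rw [mem_L_iff_of_ne_zero hy0] at hy
  intro Q
  rw [← hP1 y h0 (dv K (y : F)) (fun v => hx.dv_apply _ v) Q, ← Finsupp.add_apply,
    ← Finsupp.mapDomain_add]
  refine mapDomain_apply_nonneg r _ Q fun P _ => ?_
  rw [Finsupp.add_apply, hx.dv_apply]
  exact hy P

namespace AbsSatAux

theorem inf_L_le_zero {A B : Divisor k Fb} (hd : ∀ Q, A Q = 0 ∨ B Q = 0) :
    riemannRochSpace A ⊓ riemannRochSpace B ≤ riemannRochSpace (0 : Divisor k Fb) := by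
  rintro u ⟨h, h'⟩
  have h : u ∈ riemannRochSpace A := h
  have h' : u ∈ riemannRochSpace B := h'
  rw [mem_L_iff] at h h' ⊢
  rcases h with h | h
  · exact Or.inl h
  rcases h' with h' | h'
  · exact Or.inl h'
  right
  intro Q
  rcases hd Q with h0 | h0
  · have := h Q; rw [h0] at this; simpa using this
  · have := h' Q; rw [h0] at this; simpa using this

theorem one_mem_L {E : Divisor K F} (hE : 0 ≤ E) : (1 : F) ∈ riemannRochSpace E := by
  rw [mem_L_iff_of_ne_zero one_ne_zero]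
  intro v
  have h1 : v.ord (1 : F) = 0 := by
    have := Place.ord_algebraMap (K := K) (F := F) v 1
    rwa [map_one] at this
  rw [h1, zero_add]
  exact hE v

end AbsSatAux

/-- (N4) -/
theorem RedData.red_mem_sup_of_sub (R : RedData K F k Fb)
    (on : ∀ V : Submodule K F, FiniteDimensional K V →
      Module.finrank K V ≤ Module.finrank k (R.redSub V))
    (r : Place K F → Place k Fb)
    (hP1 : ∀ (x : R.O), R.red x ≠ 0 → ∀ D : Divisor K F, (∀ v : Place K F, D v = v.ord (x : F)) →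
      ∀ Q : Place k Fb, (D.mapDomain r) Q = Q.ord (R.red x))
    (hx : IsSepParam K x) (hb : IsSepParam k t) {E₁ E₂ : Divisor K F} (hE₁ : 0 ≤ E₁) (hE₂ : 0 ≤ E₂)
    (hdisj : ∀ Q, E₁.mapDomain r Q = 0 ∨ E₂.mapDomain r Q = 0)
    (y₁ y₂ z : R.O) {c : K} (hc : c ≠ 0) (h₁ : (y₁ : F) ∈ riemannRochSpace E₁)
    (h₂ : (y₂ : F) ∈ riemannRochSpace E₂) (h : (y₁ : F) - y₂ = algebraMap K F c * (z : F)) :
    R.red z ∈ riemannRochSpace (E₁.mapDomain r) ⊔ riemannRochSpace (E₂.mapDomain r) := by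
  have : FiniteDimensional K (riemannRochSpace E₁) := hx.finite_L E₁
  have : FiniteDimensional K (riemannRochSpace E₂) := hx.finite_L E₂
  have hz : (z : F) ∈ riemannRochSpace E₁ ⊔ riemannRochSpace E₂ := by
    have e : (z : F) = c⁻¹ • ((y₁ : F) - y₂) := by
      rw [h, Algebra.smul_def, ← mul_assoc, ← map_mul, inv_mul_cancel₀ hc, map_one, one_mul]
    rw [e]
    exact Submodule.smul_mem _ _ (Submodule.sub_mem _ (Submodule.mem_sup_left h₁)
      (Submodule.mem_sup_right h₂))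
  have hle : R.redSub (riemannRochSpace E₁) ⊓ R.redSub (riemannRochSpace E₂) ≤
      riemannRochSpace (0 : Divisor k Fb) :=
    (inf_le_inf (RedData.redSub_L_le R r hP1 hx hb E₁) (RedData.redSub_L_le R r hP1 hx hb E₂)).trans
      (AbsSatAux.inf_L_le_zero hdisj)
  have hcount : Module.finrank k ↥(R.redSub (riemannRochSpace E₁) ⊓ R.redSub (riemannRochSpace E₂))
      ≤ Module.finrank K ↥(riemannRochSpace E₁ ⊓ riemannRochSpace E₂) := by
    have := hb.finite_L_zero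
    have h1 := Submodule.finrank_mono hle
    have h2 : Module.finrank k (riemannRochSpace (0 : Divisor k Fb)) = 1 := hb.ell_zero
    have h3 : 1 ≤ Module.finrank K ↥(riemannRochSpace E₁ ⊓ riemannRochSpace E₂) := by
      rw [Submodule.one_le_finrank_iff]
      intro hbot
      have h4 : (1 : F) ∈ riemannRochSpace E₁ ⊓ riemannRochSpace E₂ :=
        ⟨AbsSatAux.one_mem_L hE₁, AbsSatAux.one_mem_L hE₂⟩
      rw [hbot, Submodule.mem_bot] at h4
      exact one_ne_zero h4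
    omega
  have hsat := RedData.redSub_sup_of_on R on _ _ hcount
  have hmem : R.red z ∈ R.redSub (riemannRochSpace E₁ ⊔ riemannRochSpace E₂) := ⟨z, hz, rfl⟩
  rw [hsat] at hmem
  exact (sup_le_sup (RedData.redSub_L_le R r hP1 hx hb E₁) (RedData.redSub_L_le R r hP1 hx hb E₂)) hmem

/-- (N5) -/
theorem RedData.red_mem_sup_of_mul (R : RedData K F k Fb)
    (on : ∀ V : Submodule K F, FiniteDimensional K V →
      Module.finrank K V ≤ Module.finrank k (R.redSub V))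
    (r : Place K F → Place k Fb)
    (hP1 : ∀ (x : R.O), R.red x ≠ 0 → ∀ D : Divisor K F, (∀ v : Place K F, D v = v.ord (x : F)) →
      ∀ Q : Place k Fb, (D.mapDomain r) Q = Q.ord (R.red x))
    (hx : IsSepParam K x) (hb : IsSepParam k t) {E₁ E₂ : Divisor K F} (hE₁ : 0 ≤ E₁) (hE₂ : 0 ≤ E₂)
    (hdisj : ∀ Q, E₁.mapDomain r Q = 0 ∨ E₂.mapDomain r Q = 0)
    {h₀ : F} (hh₀ : h₀ ≠ 0) (N₁ N₂ φ : R.O) (hN₁ : R.red N₁ = 1) (hN₂ : R.red N₂ = 1)
    {c : K} (hc : c ≠ 0) (h₁ : h₀ * (N₁ : F) ∈ riemannRochSpace E₁)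
    (h₂ : h₀ * (N₂ : F) ∈ riemannRochSpace E₂) (h : (N₁ : F) - N₂ = algebraMap K F c * (φ : F)) :
    R.red φ ∈ riemannRochSpace (E₁.mapDomain r) ⊔ riemannRochSpace (E₂.mapDomain r) := by
  obtain ⟨c₀, hO, hne⟩ := R.exists_scale h₀ hh₀
  set g : R.O := ⟨_, hO⟩ with hg
  have m₁ : ((g * N₁ : R.O) : F) ∈ riemannRochSpace E₁ := by
    have : ((g * N₁ : R.O) : F) = c₀ • (h₀ * (N₁ : F)) := by
      rw [Algebra.smul_def, ← mul_assoc]; rfl
    rw [this]; exact Submodule.smul_mem _ _ h₁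
  have m₂ : ((g * N₂ : R.O) : F) ∈ riemannRochSpace E₂ := by
    have : ((g * N₂ : R.O) : F) = c₀ • (h₀ * (N₂ : F)) := by
      rw [Algebra.smul_def, ← mul_assoc]; rfl
    rw [this]; exact Submodule.smul_mem _ _ h₂
  have r₁ : R.red g ∈ riemannRochSpace (E₁.mapDomain r) := by
    have := RedData.redSub_L_le R r hP1 hx hb E₁ ⟨g * N₁, m₁, rfl⟩
    rwa [map_mul, hN₁, mul_one] at this
  have r₂ : R.red g ∈ riemannRochSpace (E₂.mapDomain r) := by
    have := RedData.redSub_L_le R r hP1 hx hb E₂ ⟨g * N₂, m₂, rfl⟩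
    rwa [map_mul, hN₂, mul_one] at this
  have r₀ : R.red g ∈ riemannRochSpace (0 : Divisor k Fb) := AbsSatAux.inf_L_le_zero hdisj ⟨r₁, r₂⟩
  rw [hb.L_zero, Submodule.mem_one] at r₀
  obtain ⟨a, ha⟩ := r₀
  have ha0 : a ≠ 0 := by
    rintro rfl
    rw [map_zero] at ha
    exact hne ha.symm
  have key := RedData.red_mem_sup_of_sub R on r hP1 hx hb hE₁ hE₂ hdisj (g * N₁) (g * N₂) (g * φ) hc m₁ m₂
    (by
      show (g : F) * (N₁ : F) - (g : F) * (N₂ : F) = algebraMap K F c * ((g : F) * (φ : F))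
      rw [← mul_sub, h]; ring)
  rw [map_mul, ← ha] at key
  have := Submodule.smul_mem _ a⁻¹ key
  rwa [Algebra.smul_def, ← mul_assoc, ← map_mul, inv_mul_cancel₀ ha0, map_one, one_mul] at this

end Fermat.Agent.SS
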