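import Fermat.Agent.SS.Top35.Push
import Fermat.Agent.SS.Abs.Main

/-!
# SS / H1C / New : (C1), push-forward of Riemann-Roch spaces by the norm   [WP  C1-PUSH]

`φ : F →ₐ[K] F'` finite, `φ_* = Divisor.pushforwardAlong φ hφ`, `N = TorsES.normAlong φ`.

* `pushforwardAlong_nonneg` / `pushforwardAlong_mono` : `φ_*` is monotone.
  PROOF. `Finsupp.induction_linear` or: `φ_* D = D.sum fun w n => single (w.restrictAlong) (n * inertiaDegAlong)`
  (`Divisor.pushforwardAlong_single`, additivity), all terms `≥ 0` if `D ≥ 0`; `mono` from `nonneg` and `map_sub`.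
* `mul_normAlong_mem_L` : `φ_* D = div h₀`, `u ∈ L(D + E)`  ⟹  `h₀ N(u) ∈ L(φ_* E)`.
  PROOF. `u = 0` : `N 0 = 0`.  Otherwise `div u =: U` (`hx'.dv_apply`), `U + D + E ≥ 0`; `div N(u) = φ_* U`
  (`TorsES.IsDiv.pushforwardAlong` with `m = 1`, or `hN` directly as in `exists_normAlong_eq_of_pushPic0_eq_zero`);
  `ord_v (h₀ N u) = φ_*D v + φ_*U v ≥ - φ_*E v` by monotonicity and additivity.
* `exists_ord_eq_of_pushPic0_eq_zero` : `φ_* [D] = 0 ⟹ φ_* D = div h₀` (`pushPic0_mk`, `TorsES.mk_eq_zero_iff`: first 2 lines of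
  `exists_normAlong_eq_of_pushPic0_eq_zero`).
* `ord_normAlong` : `ord_v N(u) = (φ_* U) v` if `U = div u`.
-/

set_option autoImplicit false
set_option linter.unusedSectionVars false

open AlgebraicCurve

namespace Fermat.Agent.SS

open Fermat.Agent.RED Fermat.Agent.S24

variable {K F F' : Type*} [Field K] [Field F] [Field F'] [Algebra K F] [Algebra K F']
variable (φ : F →ₐ[K] F') (hφ : φ.toRingHom.IsIntegral) (hfin : FiniteAlong K φ)
  (hN : NormFormulaAlong K φ hfin)

theorem pushforwardAlong_nonneg {D : Divisor K F'} (hD : 0 ≤ D) :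
    0 ≤ Divisor.pushforwardAlong φ hφ D := by
  classical
  rw [← Finsupp.sum_single D, map_finsuppSum]
  refine Finset.sum_nonneg fun w _ => ?_
  beta_reduce
  rw [Divisor.pushforwardAlong_single]
  exact Finsupp.single_nonneg.2 (mul_nonneg (hD w) (Int.natCast_nonneg _))

theorem pushforwardAlong_mono {D D' : Divisor K F'} (h : D ≤ D') :
    Divisor.pushforwardAlong φ hφ D ≤ Divisor.pushforwardAlong φ hφ D' := by
  have h1 := pushforwardAlong_nonneg φ hφ (sub_nonneg.2 h)
  rw [map_sub] at h1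
  exact sub_nonneg.1 h1

include hN in
theorem ord_normAlong {u : F'} (hu : u ≠ 0) {U : Divisor K F'} (hU : ∀ w : Place K F', U w = w.ord u)
    (v : Place K F) : v.ord (TorsES.normAlong φ u) = Divisor.pushforwardAlong φ hφ U v := by
  letI := algebraAlong φ
  haveI := isScalarTower_along φ
  haveI := isIntegral_along φ hφ
  haveI : Module.Finite F F' := hfin
  exact (hN u hu U hU v).symm

include hN in
theorem mul_normAlong_mem_L [IsAlgClosed K] {x' : F'} (hx' : IsSepParam K x') {D E : Divisor K F'}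
    {h₀ : F} (hh₀ : h₀ ≠ 0) (hD : ∀ v : Place K F, Divisor.pushforwardAlong φ hφ D v = v.ord h₀)
    {u : F'} (hu : u ∈ riemannRochSpace (D + E)) :
    h₀ * TorsES.normAlong φ u ∈ riemannRochSpace (Divisor.pushforwardAlong φ hφ E) := by
  rcases eq_or_ne u 0 with rfl | hu0
  · have h0 : TorsES.normAlong φ (0 : F') = 0 := by
      letI := algebraAlong φ
      haveI : Module.Finite F F' := hfin
      exact Algebra.norm_zero
    rw [h0, mul_zero]
    exact Submodule.zero_mem _
  have hNu0 : TorsES.normAlong φ u ≠ 0 := by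
    letI := algebraAlong φ
    haveI : Module.Finite F F' := hfin
    exact Algebra.norm_ne_zero_iff.mpr hu0
  rw [mem_L_iff_of_ne_zero hu0] at hu
  rw [mem_L_iff_of_ne_zero (mul_ne_zero hh₀ hNu0)]
  intro v
  have h1 : 0 ≤ dv K u + (D + E) := fun w => by
    rw [Finsupp.add_apply, hx'.dv_apply]
    exact hu w
  have h2 := pushforwardAlong_nonneg φ hφ h1 v
  rw [map_add, map_add, Finsupp.add_apply, Finsupp.add_apply,
    ← ord_normAlong φ hφ hfin hN hu0 (fun w => hx'.dv_apply u w) v, hD v] at h2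
  rw [v.ord_mul hh₀ hNu0]
  have h3 : (0 : Divisor K F) v = 0 := rfl
  rw [h3] at h2
  linarith

theorem exists_ord_eq_of_pushPic0_eq_zero {D : Divisor.degZero (K := K) (F := F')}
    (h : pushPic0 φ hφ hfin hN (Pic0.mk D) = 0) :
    ∃ h₀ : F, h₀ ≠ 0 ∧
      ∀ v : Place K F, Divisor.pushforwardAlong φ hφ (D : Divisor K F') v = v.ord h₀ := by
  rw [pushPic0_mk, TorsES.mk_eq_zero_iff] at h
  obtain ⟨h0, hh0, hD⟩ := h
  exact ⟨h0, hh0, fun v => hD v⟩

end Fermat.Agent.SS
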