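import Fermat.Agent.SS.H1C.New.Norm
import Fermat.Agent.SS.H1C.New.AbsChart
import Fermat.Agent.SS.H1C.New.PushL

/-!
# SS / H1C / New : (C1), the two charts pushed to the level `M` and reduced   [WP  C1-CHART]

`P = (j)_∞`, `P' = (j - c)_0 = (1 / (j - c))_∞` at the level `M q`, `γ ∈ {α, β}`, `H : LevelRed π R r`.
CLAIM : `r_* γ_* P = (q + 1) (t)_∞` and `r_* γ_* P' =: Z ≥ 0` is disjoint from `(t)_∞`.

PROOF.  `u := j - c ∈ T.O` (`jT hqM π hπ`, `T.algebraMap_mem_O`), `red u = (t - c̄, t ^ q - c̄)` (`red_jT`, `red_const`).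
`G := N_γ u ∈ R.O`, `red G = (t - c̄) φ(t ^ q - c̄) = (t - c̄)(t ^ q - c̄ ^ q)` for `α`, `(t ^ q - c̄) φ(t - c̄) = (t - c̄ ^ q)(t ^ q - c̄)` for
`β` (`H.normA`, `H.normB`; `φ • jb = jb` [`FrobK.frobAut` is a `coeffAut`, cf. `coeffAut_smul_jb` in `SS/Top35/CompatF.lean`], `φ` on constants is
`c ↦ c ^ q`).  `div u = P' - P` (`nm_ord_sub`), so `div G = γ_*P' - γ_*P` (`ord_normAlong`, `map_sub`).
`deg γ_*P = deg P = (q + 1) deg (t)_∞` (`Divisor.degree_pushforwardAlong`, `deg_jT`) `= deg (red G)_∞` (`polarDiv_mul_sub`).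
Apply `mapDomain_eq_of_P1` (with `pushforwardAlong_nonneg`, `polarDiv_nonneg`); `Z := (1 / red G)_∞`, disjointness: `polarDiv_disj_inv`.
-/

set_option autoImplicit false
set_option linter.unusedSectionVars false
set_option linter.style.haveILetI false

noncomputable section

open Polynomial AlgebraicCurve ModularCurve IntermediateField

namespace Fermat.Agent.SS

open Fermat.Agent.RED hiding Kb
open Fermat.Agent.RED.Gauss Fermat.Agent.S24 Fermat.Agent.S28
open Fermat.Agent.GAL Fermat.Agent.GAL.PC Fermat.Agent.GAL.HeckeInputs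
open Fermat.Agent.RED.Cusp (Fb jb)

variable {M q : ℕ} [NeZero M] [hq : Fact q.Prime] (hqM : ¬ q ∣ M)
variable {A : ValuationSubring Kb} {k : Type} [Field k]
variable (π : A →+* k) [CharP k q] [IsAlgClosed k] (hπ : Function.Surjective π)
variable {R : RedData Kb (FN M) k (Fb k M)} {r : Place Kb (FN M) → Place k (Fb k M)}

include hqM in
/-- the common part of `chartA`, `chartB` -/
theorem LevelRed.chart_aux (H : LevelRed π R r) (γ : FN M →ₐ[Kb] FN (M * q))
    (hγ : γ.toRingHom.IsIntegral) (hfin : FiniteAlong Kb γ) (hN : NormFormulaAlong Kb γ hfin)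
    (c : Kb) (a b : k)
    (hG : ∃ h : TorsES.normAlong γ (jF (M * q) - algebraMap Kb (FN (M * q)) c) ∈ R.O,
      R.red ⟨_, h⟩ = (jb k M - algebraMap k (Fb k M) a) * (jb k M ^ q - algebraMap k (Fb k M) b)) :
    (Divisor.pushforwardAlong γ hγ (polarDiv Kb (jF (M * q)))).mapDomain r =
        (q + 1) • polarDiv k (jb k M) ∧
    ∃ Z : Divisor k (Fb k M), 0 ≤ Z ∧ (∀ Q, polarDiv k (jb k M) Q = 0 ∨ Z Q = 0) ∧
      (Divisor.pushforwardAlong γ hγ
        (polarDiv Kb (jF (M * q) - algebraMap Kb (FN (M * q)) c)⁻¹)).mapDomain r = Z := by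
  obtain ⟨hmem, hred⟩ := hG
  have hx : IsSepParam Kb (jF M) := RB.isSepParam_jF M
  have hx' : IsSepParam Kb (jF (M * q)) := RB.isSepParam_jF (M * q)
  have hb : IsSepParam k (jb k M) := sep_jb (k := k) hqM
  have hu : jF (M * q) - algebraMap Kb (FN (M * q)) c ≠ 0 := by
    intro h0
    exact hx'.transcendental ((sub_eq_zero.1 h0) ▸ isAlgebraic_algebraMap c)
  have h1 : jb k M - algebraMap k (Fb k M) a ≠ 0 := by
    intro h0
    exact hb.transcendental ((sub_eq_zero.1 h0) ▸ isAlgebraic_algebraMap a)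
  have h2 : jb k M ^ q - algebraMap k (Fb k M) b ≠ 0 := by
    intro h0
    have h3 : IsAlgebraic k (jb k M ^ q) := (sub_eq_zero.1 h0) ▸ isAlgebraic_algebraMap b
    exact hb.transcendental (h3.of_pow hq.out.pos)
  have hG0 : R.red ⟨_, hmem⟩ ≠ 0 := by
    rw [hred]
    exact mul_ne_zero h1 h2
  have hpol : polarDiv k (R.red ⟨_, hmem⟩) = (q + 1) • polarDiv k (jb k M) := by
    rw [hred]
    exact polarDiv_mul_sub hb q hq.out.pos a b
  have hdiv : ∀ v : Place Kb (FN M),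
      v.ord (TorsES.normAlong γ (jF (M * q) - algebraMap Kb (FN (M * q)) c)) =
        Divisor.pushforwardAlong γ hγ
          (polarDiv Kb (jF (M * q) - algebraMap Kb (FN (M * q)) c)⁻¹) v -
        Divisor.pushforwardAlong γ hγ (polarDiv Kb (jF (M * q))) v := by
    intro v
    rw [ord_normAlong γ hγ hfin hN hu
      (U := polarDiv Kb (jF (M * q) - algebraMap Kb (FN (M * q)) c)⁻¹ - polarDiv Kb (jF (M * q)))
      (fun w => by rw [Finsupp.sub_apply, nm_ord_sub hx']) v, map_sub, Finsupp.sub_apply]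
  have hdeg : Divisor.degree (Divisor.pushforwardAlong γ hγ (polarDiv Kb (jF (M * q)))) =
      Divisor.degree (polarDiv k (R.red ⟨_, hmem⟩)) := by
    rw [Divisor.degree_pushforwardAlong, hpol, map_nsmul, degree_polarDiv_jF hqM,
      degree_polarDiv_jb hqM, nsmul_eq_mul]
    push_cast
    ring
  obtain ⟨e1, e2⟩ := mapDomain_eq_of_P1 R r H.P1 hx hb ⟨_, hmem⟩ hG0
    (pushforwardAlong_nonneg γ hγ (polarDiv_nonneg _))
    (pushforwardAlong_nonneg γ hγ (polarDiv_nonneg _)) hdiv hdeg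
  refine ⟨e1.trans hpol, _, polarDiv_nonneg _, fun Q => ?_, e2⟩
  rcases polarDiv_disj_inv hb (R.red ⟨_, hmem⟩) Q with h | h
  · left
    rw [hpol, Finsupp.smul_apply, nsmul_eq_mul] at h
    rcases mul_eq_zero.1 h with h | h
    · exact absurd h (by exact_mod_cast Nat.succ_ne_zero q)
    · exact h
  · exact Or.inr h

/-- `j - c` as an element of `T.O` -/
theorem exists_jT_sub (c : A) : ∃ u : (twoRed hqM π hπ).O,
    (u : FN (M * q)) = jF (M * q) - algebraMap Kb (FN (M * q)) (c : Kb) ∧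
    (twoRed hqM π hπ).red u = (jb k M - algebraMap k (Fb k M) (π c),
      jb k M ^ q - algebraMap k (Fb k M) (π c)) := by
  have hc : algebraMap Kb (FN (M * q)) (c : Kb) ∈ (twoRed hqM π hπ).O :=
    (twoRed hqM π hπ).algebraMap_mem_O (by rw [twoRed_A]; exact c.2)
  refine ⟨jT hqM π hπ - ⟨_, hc⟩, rfl, ?_⟩
  rw [map_sub, red_jT, red_const]
  rfl

theorem frobAut_smul_jb : FrobK.frobAut k q M • jb k M = jb k M :=
  Subtype.ext (coeffMap_jqModC ((frobeniusEquiv k q : k ≃+* k) : k →+* k))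

theorem frobAut_smul_algebraMap (a : k) :
    FrobK.frobAut k q M • algebraMap k (Fb k M) a = algebraMap k (Fb k M) (a ^ q) := by
  rw [SemilinearAut.smul_algebraMap]
  rfl

include hqM hπ in
theorem LevelRed.chartA (H : LevelRed π R r) (c : A) :
    (Divisor.pushforwardAlong (heckeAlphaBar Kb M q) (heckeAlphaBarIntegral M q)
        (polarDiv Kb (jF (M * q)))).mapDomain r = (q + 1) • polarDiv k (jb k M) ∧
    ∃ Z : Divisor k (Fb k M), 0 ≤ Z ∧ (∀ Q, polarDiv k (jb k M) Q = 0 ∨ Z Q = 0) ∧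
      (Divisor.pushforwardAlong (heckeAlphaBar Kb M q) (heckeAlphaBarIntegral M q)
        (polarDiv Kb (jF (M * q) - algebraMap Kb (FN (M * q)) (c : Kb))⁻¹)).mapDomain r = Z := by
  obtain ⟨u, hu, hur⟩ := exists_jT_sub hqM π hπ c
  obtain ⟨h, hr⟩ := H.normA hqM π hπ u
  refine H.chart_aux hqM π _ _ (finiteAlong_alpha M q) (normFormulaAlong_alpha M q) (c : Kb)
    (π c) (π c ^ q) ?_
  rw [← hu]
  refine ⟨h, ?_⟩
  rw [hr, hur]
  simp only [smul_sub, smul_pow', frobAut_smul_jb, frobAut_smul_algebraMap]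

include hqM hπ in
theorem LevelRed.chartB (H : LevelRed π R r) (c : A) :
    (Divisor.pushforwardAlong (heckeBetaBar Kb M q) (heckeBetaBarIntegral M q)
        (polarDiv Kb (jF (M * q)))).mapDomain r = (q + 1) • polarDiv k (jb k M) ∧
    ∃ Z : Divisor k (Fb k M), 0 ≤ Z ∧ (∀ Q, polarDiv k (jb k M) Q = 0 ∨ Z Q = 0) ∧
      (Divisor.pushforwardAlong (heckeBetaBar Kb M q) (heckeBetaBarIntegral M q)
        (polarDiv Kb (jF (M * q) - algebraMap Kb (FN (M * q)) (c : Kb))⁻¹)).mapDomain r = Z := by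
  obtain ⟨u, hu, hur⟩ := exists_jT_sub hqM π hπ c
  obtain ⟨h, hr⟩ := H.normB hqM π hπ u
  refine H.chart_aux hqM π _ _ (finiteAlong_beta M q) (normFormulaAlong_beta M q) (c : Kb)
    (π c ^ q) (π c) ?_
  rw [← hu]
  refine ⟨h, ?_⟩
  rw [hr, hur]
  simp only [smul_sub, frobAut_smul_jb, frobAut_smul_algebraMap]
  exact mul_comm _ _

end Fermat.Agent.SS
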