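import Fermat.Agent.RED.Deuring.Basic
import Fermat.Agent.NP.Trace
import Mathlib

/-!
# SS / H1C / New : (C1), [TRACE] abstract part : first order term of a norm   [WP  C1-INTERP]

`F / F'` a finite extension of fields, `R : RedData K F' k Fb` a constant reduction of `F' / K`, `k` infinite.
Suppose that for ALL integral constants `y` the norm `N(n + y ψ)` is integral with reduction `Qt(ȳ)`, `Qt ∈ Fb[Y]`
a fixed polynomial.  Then for `c` in the maximal ideal `N(n + c ψ) - N(n) = c φ`, `φ` integral, `red φ = coeff₁ Qt`.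

PROOF.  (1) `P := det (X • (leftMulMatrix b ψ).map C + (leftMulMatrix b n).map C) ∈ F'[X]`, `b` a basis of `F / F'`:
`P.eval z = N(n + z ψ)` for all `z : F'` (`Algebra.norm_eq_matrix_det`, `RingHom.map_det` / `Matrix.eval_det`), and
`P.natDegree ≤ d := finrank` (`Matrix.natDegree_det_X_add_C_le`).
(2) `P ∈ Polynomial.lifts R.O.subtype`: choose `d + 1` constants `y_i` of `R.O` with pairwise distinct residues (`k` infinite,
`R.exists_const`); `y_i - y_j` is a unit of `R.O` (`R.isUnit_of_red_ne_zero`), so every `Lagrange.basis` polynomial is in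
the subsemiring `lifts` (products of `C (y_i - y_j)⁻¹ * (X - C y_j)`), and `P = ∑ C (P.eval y_i) * basis_i`
(`Lagrange.eq_interpolate_of_eval_eq`) with `P.eval y_i ∈ R.O` by hypothesis.
(3) `P = P₀.map R.O.subtype`; `Pb := P₀.map R.red`.  For every integral constant `y`: `Pb.eval ȳ = red (P₀.eval y) = Qt.eval ȳ`;
the `ȳ` are infinitely many elements of the field `Fb`, so `Pb = Qt` (`Polynomial.eq_of_infinite_eval_eq`).
(4) `P₀.eval c - P₀.eval 0 = c * φ` with `φ := (P₀.divX).eval c` (`Polynomial.divX_mul_X_add`), and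
`red φ = (Pb.divX).eval 0 = Pb.coeff 1` because `red c = 0`.
-/

set_option autoImplicit false

open Polynomial

namespace Fermat.Agent.SS

open Fermat.Agent.RED

variable {K F' F k Fb : Type*} [Field K] [Field F'] [Algebra K F'] [Field F] [Algebra F' F]
  [FiniteDimensional F' F] [Field k] [Field Fb] [Algebra k Fb] [Infinite k]

/-- [TRACE], abstract form -/
theorem exists_norm_sub_eq (R : RedData K F' k Fb) (n ψ : F) (Qt : Fb[X])
    (h : ∀ (y : K) (hy : algebraMap K F' y ∈ R.O),
      ∃ hN : Algebra.norm F' (n + algebraMap F' F (algebraMap K F' y) * ψ) ∈ R.O,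
        R.red ⟨_, hN⟩ = Qt.eval (R.red ⟨_, hy⟩))
    {c : K} (hc : algebraMap K F' c ∈ R.O) (hc0 : R.red ⟨_, hc⟩ = 0) :
    ∃ φ : R.O, Algebra.norm F' (n + algebraMap F' F (algebraMap K F' c) * ψ) - Algebra.norm F' n =
      algebraMap K F' c * (φ : F') ∧ R.red φ = Qt.coeff 1 := by
  classical
  set b := Module.finBasis F' F with hb
  set Mψ := Algebra.leftMulMatrix b ψ with hMψ
  set Mn := Algebra.leftMulMatrix b n with hMn
  set P : F'[X] := Matrix.det ((X : F'[X]) • Mψ.map C + Mn.map C) with hPdef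
  have hdeg : P.natDegree ≤ Fintype.card (Fin (Module.finrank F' F)) :=
    Polynomial.natDegree_det_X_add_C_le Mψ Mn
  -- evaluation of `P`
  have hPev : ∀ z : F', P.eval z = Algebra.norm F' (n + algebraMap F' F z * ψ) := by
    intro z
    have h1 := (evalRingHom z).map_det ((X : F'[X]) • Mψ.map C + Mn.map C)
    rw [coe_evalRingHom] at h1
    have h2 : Algebra.leftMulMatrix b (n + algebraMap F' F z * ψ) = z • Mψ + Mn := by
      rw [map_add, map_mul, AlgHom.commutes, ← Algebra.smul_def, add_comm]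
    rw [hPdef, h1, Algebra.norm_eq_matrix_det b, h2]
    congr 1
    ext i j
    simp
    exact mul_comm _ _
  -- integral constants
  have hPint : ∀ (y : K) (hy : algebraMap K F' y ∈ R.O),
      ∃ hh : P.eval (algebraMap K F' y) ∈ R.O, R.red ⟨_, hh⟩ = Qt.eval (R.red ⟨_, hy⟩) := by
    intro y hy
    obtain ⟨h1, h2⟩ := h y hy
    refine ⟨by rw [hPev]; exact h1, ?_⟩
    have e2 : (⟨P.eval (algebraMap K F' y), by rw [hPev]; exact h1⟩ : R.O) =
        ⟨Algebra.norm F' (n + algebraMap F' F (algebraMap K F' y) * ψ), h1⟩ :=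
      Subtype.ext (hPev _)
    rw [e2, h2]
  -- interpolation nodes
  obtain ⟨s, hs⟩ := Infinite.exists_subset_card_eq k (Fintype.card (Fin (Module.finrank F' F)) + 1)
  choose cc hcc hcr using R.exists_const
  have hlift : P ∈ lifts R.O.toSubring.subtype := by
    refine NP.TraceAux.mem_lifts_of_eval R.O.toSubring P s (fun a => algebraMap K F' (cc a)) ?_
      (fun a _ => hcc a) ?_ ?_ (fun a _ => (hPint (cc a) (hcc a)).1)
    · rw [hs]
      refine lt_of_le_of_lt degree_le_natDegree ?_
      exact_mod_cast Nat.lt_succ_of_le hdeg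
    · intro a _ a' _ hne
      have hmem : algebraMap K F' (cc a) - algebraMap K F' (cc a') ∈ R.O :=
        R.O.sub_mem (hcc a) (hcc a')
      have hred : R.red ⟨_, hmem⟩ ≠ 0 := by
        have : (⟨_, hmem⟩ : R.O) = ⟨_, hcc a⟩ - ⟨_, hcc a'⟩ := rfl
        rw [this, map_sub, hcr, hcr, ← map_sub]
        exact (map_ne_zero_iff _ (algebraMap k Fb).injective).2 (sub_ne_zero.2 hne)
      exact R.inv_mem_of_red_ne_zero hred
    · intro a _ a' _ e
      by_contra hne
      have h1 : (⟨_, hcc a⟩ : R.O) = ⟨_, hcc a'⟩ := Subtype.ext e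
      have h2 := congrArg R.red h1
      rw [hcr, hcr] at h2
      exact hne ((algebraMap k Fb).injective h2)
  obtain ⟨Ph, hPh⟩ := hlift
  have hPh' : Ph.map R.O.toSubring.subtype = P := hPh
  have hev : ∀ y : R.O, ((Ph.eval y : R.O) : F') = P.eval (y : F') := by
    intro y
    rw [← hPh', eval_map]
    exact (hom_eval₂ Ph (RingHom.id _) R.O.toSubring.subtype y).trans (by simp)
  set Pb := Ph.map R.red with hPb
  have hPbeq : Pb = Qt := by
    refine eq_of_infinite_eval_eq _ _ (Set.Infinite.mono ?_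
      (Set.infinite_range_of_injective (algebraMap k Fb).injective))
    rintro _ ⟨a, rfl⟩
    show Pb.eval _ = _
    obtain ⟨h1, h2⟩ := hPint (cc a) (hcc a)
    rw [← hcr a, hPb, eval_map_apply]
    have e3 : Ph.eval (⟨_, hcc a⟩ : R.O) = ⟨_, h1⟩ := Subtype.ext (hev _)
    rw [e3, h2]
  refine ⟨(divX Ph).eval ⟨_, hc⟩, ?_, ?_⟩
  · have h0 : ((Ph.coeff 0 : R.O) : F') = Algebra.norm F' n := by
      have h1 := hev 0
      rw [← coeff_zero_eq_eval_zero] at h1
      rw [h1]
      show P.eval 0 = _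
      rw [hPev]
      simp
    have h3 : Ph.eval (⟨_, hc⟩ : R.O) =
        (divX Ph).eval (⟨_, hc⟩ : R.O) * ⟨_, hc⟩ + Ph.coeff 0 := by
      conv_lhs => rw [← divX_mul_X_add Ph]
      simp only [eval_add, eval_mul, eval_X, eval_C]
    rw [← hPev, ← hev ⟨_, hc⟩, ← h0, h3]
    show (((divX Ph).eval (⟨_, hc⟩ : R.O) : R.O) : F') * algebraMap K F' c +
      ((Ph.coeff 0 : R.O) : F') - ((Ph.coeff 0 : R.O) : F') = _
    ring
  · rw [← eval_map_apply, hc0, ← coeff_zero_eq_eval_zero, coeff_map, coeff_divX, ← coeff_map,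
      ← hPb, hPbeq]

end Fermat.Agent.SS
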