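import Fermat.Agent.SS.Mod.Lift
import Fermat.Agent.SS.Top35.NormQ
import Fermat.Agent.SS.Top35.Push

/-!
# SS / H1C / New : (C1), the good reduction at the level `M` and the norms `N_α`, `N_β`

`LevelRed π R r` : `R` is the Gauss reduction of `F_M` (`R.O = bigO`, `R.red = bigRed`), which does not lose dimension,
and `r` is Deuring's reduction map of places ((P1)).  `exists_levelRed` : it exists at the rigid levels.
-/

set_option autoImplicit false
set_option linter.unusedSectionVars false
set_option linter.style.haveILetI false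

noncomputable section

open Polynomial AlgebraicCurve ModularCurve IntermediateField

namespace Fermat.Agent.SS

open Fermat.Agent.RED hiding Kb
open Fermat.Agent.RED.Gauss Fermat.Agent.S24 Fermat.Agent.S28
open Fermat.Agent.RED.Cusp (Fb jb)

variable {M q : ℕ} [NeZero M] [hq : Fact q.Prime] (hqM : ¬ q ∣ M)
variable {A : ValuationSubring Kb} {k : Type} [Field k]
variable (π : A →+* k) [CharP k q] [IsAlgClosed k] (hπ : Function.Surjective π)

/-- the good reduction at the level `M` -/
structure LevelRed (R : RedData Kb (FN M) k (Fb k M))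
    (r : Place Kb (FN M) → Place k (Fb k M)) : Prop where
  mem_iff : ∀ f : FN M, f ∈ R.O ↔ (f : LaurentSeries Kb) ∈ bigO π
  red_eq : ∀ (f : R.O) (hf : ((f : FN M) : LaurentSeries Kb) ∈ bigO π),
    ((R.red f : Fb k M) : LaurentSeries k) = bigRed π ⟨_, hf⟩
  on : ∀ V : Submodule Kb (FN M), FiniteDimensional Kb V →
    Module.finrank Kb V ≤ Module.finrank k (R.redSub V)
  P1 : ∀ (x : R.O), R.red x ≠ 0 → ∀ D : Divisor Kb (FN M),
    (∀ v : Place Kb (FN M), D v = v.ord (x : FN M)) →
      ∀ Q : Place k (Fb k M), (D.mapDomain r) Q = Q.ord (R.red x)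

include hqM hπ in
theorem exists_levelRed (h49 : 4 ∣ M ∨ 9 ∣ M) :
    ∃ (R : RedData Kb (FN M) k (Fb k M)) (r : Place Kb (FN M) → Place k (Fb k M)),
      LevelRed π R r := by
  obtain ⟨u, h⟩ := exists_isCoreExt M q hqM
  set R := gaussRedData π hπ (card_Q_pos M) h with hR
  have hgen : gR Kb (FN M) ≤ gR k (Fb k M) :=
    gen_of_rhRel M (fun _ _ _ _ _ _ _ _ _ _ _ _ h1 h2 => Fermat.Agent.RR.rhRel h1 h2) h49 k hqM
  obtain ⟨c, H⟩ := exists_deuringHyp R (RB.isSepParam_jF M) (sep_jb (k := k) hqM) hgen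
    (gaussRedData_on π hπ (card_Q_pos M) h)
  obtain ⟨r, -, hP1, -⟩ := H.exists_placeMap
  exact ⟨R, r, fun f => Iff.rfl, fun f hf => rfl, gaussRedData_on π hπ (card_Q_pos M) h, hP1⟩

end Fermat.Agent.SS
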