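import Fermat.Agent.SS.H1C.New.Chart
import Fermat.Agent.SS.H1C.New.AbsSat
import Fermat.Agent.SS.H1.Normal
import Fermat.Agent.SS.H1.New

/-!
# SS / H1C / New : (C1)  `pushA [D] = pushB [D] = 0` ⟹ the first order invariant of `D` splits

Assembly of `AbsSat`, `AbsChart`, `Norm`, `PushL`, `Chart`.
-/

set_option autoImplicit false
set_option linter.unusedSectionVars false
set_option linter.style.haveILetI false

noncomputable section

open Polynomial AlgebraicCurve ModularCurve IntermediateField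

namespace Fermat.Agent.SS

open Fermat.Agent.RED hiding Kb
open Fermat.Agent.RED.Gauss Fermat.Agent.S24 Fermat.Agent.S28
open Fermat.Agent.GAL Fermat.Agent.GAL.PC Fermat.Agent.GAL.HeckeInputs
open Fermat.Agent.RED.Cusp (Fb jb)

section Abs

variable {K F F' k Fb : Type*} [Field K] [Field F] [Algebra K F] [Field F'] [Algebra K F']
  [Field k] [Field Fb] [Algebra k Fb] [IsAlgClosed K] [IsAlgClosed k] {x : F} {x' : F'} {t : Fb}

/-- the common part of the arguments for `α` and `β` -/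
theorem splits_of_norm (R : RedData K F k Fb)
    (on : ∀ V : Submodule K F, FiniteDimensional K V →
      Module.finrank K V ≤ Module.finrank k (R.redSub V))
    (r : Place K F → Place k Fb)
    (hP1 : ∀ (x : R.O), R.red x ≠ 0 → ∀ D : Divisor K F, (∀ v : Place K F, D v = v.ord (x : F)) →
      ∀ Q : Place k Fb, (D.mapDomain r) Q = Q.ord (R.red x))
    (hx : IsSepParam K x) (hx' : IsSepParam K x') (hb : IsSepParam k t)
    (φ : F →ₐ[K] F') (hφ : φ.toRingHom.IsIntegral) (hfin : FiniteAlong K φ)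
    (hN : NormFormulaAlong K φ hfin)
    {D P P' : Divisor K F'} (hP : 0 ≤ P) (hP' : 0 ≤ P') {m : ℕ} {Pb Pb' Z : Divisor k Fb}
    (hPb : 0 ≤ Pb) (hPb' : 0 ≤ Pb') (hZ : 0 ≤ Z) (hd : ∀ Q, Pb Q = 0 ∨ Pb' Q = 0)
    (hdZ : ∀ Q, Pb Q = 0 ∨ Z Q = 0)
    (hrP : (Divisor.pushforwardAlong φ hφ P).mapDomain r ≤ m • Pb)
    (hrP0 : ∀ Q, Pb Q = 0 → (Divisor.pushforwardAlong φ hφ P).mapDomain r Q = 0)
    (hrP' : (Divisor.pushforwardAlong φ hφ P').mapDomain r = Z)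
    {h₀ : F} (hh₀ : h₀ ≠ 0) (hD : ∀ v : Place K F, Divisor.pushforwardAlong φ hφ D v = v.ord h₀)
    {a b : ℕ} {n₁ n₂ : F'} (hn₁ : n₁ ∈ riemannRochSpace (D + a • P))
    (hn₂ : n₂ ∈ riemannRochSpace (D + b • P'))
    (N₁ N₂ φ' : R.O) (hN₁ : (N₁ : F) = TorsES.normAlong φ n₁)
    (hN₂ : (N₂ : F) = TorsES.normAlong φ n₂) (hr₁ : R.red N₁ = 1) (hr₂ : R.red N₂ = 1)
    {c : K} (hc : c ≠ 0) (h : (N₁ : F) - N₂ = algebraMap K F c * (φ' : F))
    (hw : R.red φ' ∈ riemannRochSpace (a • Pb + b • Pb')) :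
    ∃ a' b' : ℕ, R.red φ' ∈ riemannRochSpace (a' • Pb) ⊔ riemannRochSpace (b' • Pb') := by
  have m₁ := mul_normAlong_mem_L φ hφ hfin hN hx' hh₀ hD hn₁
  have m₂ := mul_normAlong_mem_L φ hφ hfin hN hx' hh₀ hD hn₂
  rw [← hN₁] at m₁
  rw [← hN₂] at m₂
  have e₁ : (Divisor.pushforwardAlong φ hφ (a • P)).mapDomain r =
      a • (Divisor.pushforwardAlong φ hφ P).mapDomain r := by
    rw [map_nsmul, ← Finsupp.mapDomain.addMonoidHom_apply r, map_nsmul,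
      Finsupp.mapDomain.addMonoidHom_apply]
  have e₂ : (Divisor.pushforwardAlong φ hφ (b • P')).mapDomain r = b • Z := by
    rw [map_nsmul, ← Finsupp.mapDomain.addMonoidHom_apply r, map_nsmul,
      Finsupp.mapDomain.addMonoidHom_apply, hrP']
  have hdisj : ∀ Q, (Divisor.pushforwardAlong φ hφ (a • P)).mapDomain r Q = 0 ∨
      (Divisor.pushforwardAlong φ hφ (b • P')).mapDomain r Q = 0 := by
    intro Q
    rw [e₁, e₂, Finsupp.smul_apply, Finsupp.smul_apply]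
    rcases hdZ Q with h0 | h0
    · left; rw [hrP0 Q h0, smul_zero]
    · right; rw [h0, smul_zero]
  have key := RedData.red_mem_sup_of_mul R on r hP1 hx hb
    (pushforwardAlong_nonneg φ hφ (smul_nonneg (Nat.zero_le a) hP))
    (pushforwardAlong_nonneg φ hφ (smul_nonneg (Nat.zero_le b) hP')) hdisj hh₀ N₁ N₂ φ' hr₁ hr₂ hc
    m₁ m₂ h
  rw [e₁, e₂] at key
  obtain ⟨g, hg, g', hg', hsum⟩ := Submodule.mem_sup.1 key
  have hg2 : g ∈ riemannRochSpace ((a * m) • Pb) := by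
    refine L_mono ?_ hg
    rw [mul_smul]
    exact smul_le_smul_of_nonneg_left hrP (Nat.zero_le a)
  have hg3 : g' ∈ riemannRochSpace (b • Pb') :=
    mem_L_of_add hb hPb hPb' (smul_nonneg (Nat.zero_le b) hZ) hd
      (fun Q => by
        rcases hdZ Q with h0 | h0
        · exact Or.inl h0
        · right; rw [Finsupp.smul_apply, h0, smul_zero]) hw hg2 hg' hsum.symm
  exact ⟨a * m, b, Submodule.mem_sup.2 ⟨g, hg2, g', hg3, hsum⟩⟩

end Abs

section Conc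

variable {M q : ℕ} [NeZero M] [hq : Fact q.Prime] (hqM : ¬ q ∣ M)
variable {A : ValuationSubring Kb} {k : Type} [Field k]
variable (π : A →+* k) [CharP k q] [IsAlgClosed k] (hπ : Function.Surjective π)

/-- **(C1)** : if `α_* [D] = β_* [D] = 0` then the first order invariant of every pair of `D` splits on
both components. -/
theorem splits_of_push (h49 : 4 ∣ M ∨ 9 ∣ M) (c₀ : A) (𝒩 : NodalData (twoRed hqM π hπ))
    (hP : 𝒩.P = polarDiv Kb (jF (M * q)))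
    (hP' : 𝒩.P' = polarDiv Kb (jF (M * q) - algebraMap Kb (FN (M * q)) (c₀ : Kb))⁻¹)
    (hP₁ : 𝒩.P₁ = polarDiv k (jb k M)) (hP₂ : 𝒩.P₂ = polarDiv k (jb k M ^ q))
    {D : Divisor.degZero (K := Kb) (F := FN (M * q))}
    (hA : pushA M q (Pic0.mk D) = 0) (hB : pushB M q (Pic0.mk D) = 0)
    {a b : ℕ} {n₁ n₂ ψ : (twoRed hqM π hπ).O} {c : Kb}
    (hpair : IsPair 𝒩 (D : Divisor Kb (FN (M * q))) a b n₁ n₂ ψ c) (hc : c ≠ 0)
    (hcA : c ∈ A) (hcA' : c⁻¹ ∉ A) (hmem : (twoRed hqM π hπ).red ψ ∈ 𝒩.Msub 1 a b) :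
    𝒩.Splits₁ ((twoRed hqM π hπ).red ψ).1 ∧ 𝒩.Splits₂ ((twoRed hqM π hπ).red ψ).2 := by
  obtain ⟨R, r, H⟩ := exists_levelRed hqM π hπ h49
  have hx := RB.isSepParam_jF M
  have hx' := RB.isSepParam_jF (M * q)
  have hb := sep_jb (k := k) hqM
  have hq0 : 0 < q := hq.out.pos
  have hm₁ : (n₁ : FN (M * q)) ∈ riemannRochSpace ((D : Divisor Kb (FN (M * q))) + a • 𝒩.P) := by
    have := hpair.mem₁
    rwa [NodalData.X, zero_smul, add_zero] at this
  have hm₂ : (n₂ : FN (M * q)) ∈ riemannRochSpace ((D : Divisor Kb (FN (M * q))) + b • 𝒩.P') := by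
    have := hpair.mem₂
    rwa [NodalData.X, zero_smul, zero_add] at this
  have hn : (n₁ : FN (M * q)) = (n₂ : FN (M * q)) + algebraMap Kb (FN (M * q)) c * (ψ : FN (M * q)) := by
    rw [← hpair.eq]; ring
  have hone : FrobK.frobAut k q M • (1 : Fb k M) = 1 := smul_one _
  constructor
  · -- `α`
    obtain ⟨h₀, hh₀, hD⟩ := exists_ord_eq_of_pushPic0_eq_zero _ _ _ _ hA
    obtain ⟨hc1, Z, hZ, hdZ, hc2⟩ := H.chartA hqM π hπ c₀
    obtain ⟨i₁, r₁⟩ := H.normA hqM π hπ n₁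
    obtain ⟨i₂, r₂⟩ := H.normA hqM π hπ n₂
    obtain ⟨φ', e, hφ'⟩ := H.exists_normA_sub hqM π hπ n₂ ψ hpair.red₂ hcA hcA'
    rw [hpair.red₁] at r₁
    rw [hpair.red₂] at r₂
    rw [← hn] at e
    rw [← hφ']
    refine splits_of_norm R H.on r H.P1 hx hx' hb (heckeAlphaBar Kb M q) (heckeAlphaBarIntegral M q)
      (finiteAlong_alpha M q) (normFormulaAlong_alpha M q) 𝒩.P_nonneg 𝒩.P'_nonneg (m := q + 1)
      𝒩.P₁_nonneg 𝒩.P₁'_nonneg hZ 𝒩.disj₁ (by rw [hP₁]; exact hdZ) ?_ ?_ (by rw [hP']; exact hc2)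
      hh₀ hD hm₁ hm₂ ⟨_, i₁⟩ ⟨_, i₂⟩ φ' rfl rfl ?_ ?_ hc e ?_
    · rw [hP, hc1, hP₁]
    · intro Q hQ
      rw [hP, hc1, Finsupp.smul_apply, ← hP₁, hQ, smul_zero]
    · rw [r₁]; show (1 : Fb k M) * FrobK.frobAut k q M • (1 : Fb k M) = 1
      rw [hone, mul_one]
    · rw [r₂]; show (1 : Fb k M) * FrobK.frobAut k q M • (1 : Fb k M) = 1
      rw [hone, mul_one]
    · rw [hφ']
      exact hmem.1
  · -- `β`
    obtain ⟨h₀, hh₀, hD⟩ := exists_ord_eq_of_pushPic0_eq_zero _ _ _ _ hB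
    obtain ⟨hc1, Z, hZ, hdZ, hc2⟩ := H.chartB hqM π hπ c₀
    obtain ⟨i₁, r₁⟩ := H.normB hqM π hπ n₁
    obtain ⟨i₂, r₂⟩ := H.normB hqM π hπ n₂
    obtain ⟨φ', e, hφ'⟩ := H.exists_normB_sub hqM π hπ n₂ ψ hpair.red₂ hcA hcA'
    rw [hpair.red₁] at r₁
    rw [hpair.red₂] at r₂
    rw [← hn] at e
    rw [← hφ']
    have hP₂' : 𝒩.P₂ = q • polarDiv k (jb k M) := by rw [hP₂, nm_polarDiv_pow hb]
    have hz : ∀ Q, 𝒩.P₂ Q = 0 → polarDiv k (jb k M) Q = 0 := by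
      intro Q hQ
      rw [hP₂', Finsupp.smul_apply, nsmul_eq_mul] at hQ
      rcases mul_eq_zero.1 hQ with h0 | h0
      · exact absurd (by exact_mod_cast h0) hq0.ne'
      · exact h0
    refine splits_of_norm R H.on r H.P1 hx hx' hb (heckeBetaBar Kb M q) (heckeBetaBarIntegral M q)
      (finiteAlong_beta M q) (normFormulaAlong_beta M q) 𝒩.P_nonneg 𝒩.P'_nonneg (m := q + 1)
      𝒩.P₂_nonneg 𝒩.P₂'_nonneg hZ 𝒩.disj₂ ?_ ?_ ?_ (by rw [hP']; exact hc2)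
      hh₀ hD hm₁ hm₂ ⟨_, i₁⟩ ⟨_, i₂⟩ φ' rfl rfl ?_ ?_ hc e ?_
    · intro Q
      rcases hdZ Q with h0 | h0
      · left; rw [hP₂', Finsupp.smul_apply, h0, smul_zero]
      · exact Or.inr h0
    · rw [hP, hc1, hP₂']
      refine smul_le_smul_of_nonneg_left ?_ (Nat.zero_le _)
      intro Q
      rw [Finsupp.smul_apply, nsmul_eq_mul]
      have h0 : 0 ≤ polarDiv k (jb k M) Q := polarDiv_nonneg _ Q
      have h1 : (1 : ℤ) ≤ q := by exact_mod_cast hq0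
      nlinarith
    · intro Q hQ
      rw [hP, hc1, Finsupp.smul_apply, hz Q hQ, smul_zero]
    · rw [r₁]; show (1 : Fb k M) * FrobK.frobAut k q M • (1 : Fb k M) = 1
      rw [hone, mul_one]
    · rw [r₂]; show (1 : Fb k M) * FrobK.frobAut k q M • (1 : Fb k M) = 1
      rw [hone, mul_one]
    · rw [hφ']
      exact hmem.2.1

end Conc

end Fermat.Agent.SS
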