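import Fermat.Agent.SS.H1C.New.Level
import Fermat.Agent.SS.H1C.New.Interp

/-!
# SS / H1C / New : (C1), reduction of the norms and [TRACE]   [WPs  C1-NORM, C1-TRACE]

`T = twoRed hqM π hπ`, `H : LevelRed π R r`.

* [C1-NORM] `LevelRed.normA`, `LevelRed.normB` : for `u ∈ T.O`, `N_α u ∈ R.O`, `red (N_α u) = ū₁ φ(ū₂)`;
  `red (N_β u) = ū₂ φ(ū₁)`, `φ = FrobK.frobAut k q M` (coefficientwise Frobenius).
  PROOF. `twoRed_norm_red hqM π hπ one_ne_zero one_ne_zero` with `f₁ = f₂ = f = u`, `c₁ = c₂ = 1`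
  (`map_one, one_mul`), then `H.mem_iff`, `H.red_eq`, `Subtype.ext`.
* [C1-TRACE] `LevelRed.exists_normA_sub` : `red n = 1`, `|c| < 1` ⟹ `N_α(n + c ψ) - N_α(n) = c φ'`, `φ' ∈ R.O`,
  `red φ' = ψ̄₁`; `exists_normB_sub` : `= ψ̄₂`.
  PROOF. `letI := algebraAlong (heckeAlphaBar Kb M q)`, `haveI : FiniteDimensional _ _ := finiteAlong_alpha M q`
  (`TorsES.normAlong` unfolds to `Algebra.norm`; `algebraMap (FN M) (FN (M*q)) = heckeAlphaBar ..`, and
  `heckeAlphaBar (algebraMap Kb _ y) = algebraMap Kb _ y` by `AlgHom.commutes`).  Apply `exists_norm_sub_eq R n ψ Qt` with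
  `Qt := (C 1 + X * C ψ̄₁) * (C 1 + X ^ q * C (φ ψ̄₂))`.  Hypothesis: for an integral constant `y`, `n + y ψ ∈ T.O` has
  reduction `(1 + ȳ ψ̄₁, 1 + ȳ ψ̄₂)`, `normA` gives `(1 + ȳ ψ̄₁) φ(1 + ȳ ψ̄₂)` and `φ(ȳ) = ȳ ^ q` on constants
  (`SemilinearAut.smul_algebraMap`, `baseAut (frobAut) = frobenius`).  `Qt.coeff 1 = ψ̄₁` because `q ≥ 2`.
-/

set_option autoImplicit false
set_option linter.unusedSectionVars false
set_option linter.style.haveILetI false

noncomputable section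

open Polynomial AlgebraicCurve ModularCurve IntermediateField

namespace Fermat.Agent.SS

open Fermat.Agent.RED hiding Kb
open Fermat.Agent.RED.Gauss Fermat.Agent.S24 Fermat.Agent.S28
open Fermat.Agent.RED.Cusp (Fb jb)

variable {M q : ℕ} [NeZero M] [hq : Fact q.Prime] (hqM : ¬ q ∣ M)
variable {A : ValuationSubring Kb} {k : Type} [Field k]
variable (π : A →+* k) [CharP k q] [IsAlgClosed k] (hπ : Function.Surjective π)
variable {R : RedData Kb (FN M) k (Fb k M)} {r : Place Kb (FN M) → Place k (Fb k M)}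

/-- [C1-NORM] -/
theorem LevelRed.normA (H : LevelRed π R r) (u : (twoRed hqM π hπ).O) :
    ∃ h : TorsES.normAlong (heckeAlphaBar Kb M q) (u : FN (M * q)) ∈ R.O,
      R.red ⟨_, h⟩ = ((twoRed hqM π hπ).red u).1 *
        FrobK.frobAut k q M • ((twoRed hqM π hπ).red u).2 := by
  obtain ⟨⟨w, hw, hN, hred⟩, -⟩ := twoRed_norm_red hqM π hπ (f := (u : FN (M * q)))
    (f₁ := (u : FN (M * q))) (f₂ := (u : FN (M * q))) (c₁ := 1) (c₂ := 1) one_ne_zero one_ne_zero
    (by rw [map_one, one_mul]) (by rw [map_one, one_mul]) u.2.1 u.2.2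
  rw [one_pow, one_mul, map_one, one_mul] at hN
  have hmem : TorsES.normAlong (heckeAlphaBar Kb M q) (u : FN (M * q)) ∈ R.O := by
    rw [hN]; exact (H.mem_iff w).2 hw
  refine ⟨hmem, ?_⟩
  apply Subtype.ext
  have hw' : (((⟨_, hmem⟩ : R.O) : FN M) : LaurentSeries Kb) ∈ bigO π := by
    show ((TorsES.normAlong (heckeAlphaBar Kb M q) (u : FN (M * q)) : FN M) : LaurentSeries Kb) ∈ _
    rw [hN]; exact hw
  rw [H.red_eq ⟨_, hmem⟩ hw']
  have e : (⟨(((⟨_, hmem⟩ : R.O) : FN M) : LaurentSeries Kb), hw'⟩ : bigO π) =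
      ⟨(w : LaurentSeries Kb), hw⟩ := Subtype.ext (by
    show ((TorsES.normAlong (heckeAlphaBar Kb M q) (u : FN (M * q)) : FN M) : LaurentSeries Kb) = _
    rw [hN])
  rw [e, hred]
  rfl

/-- [C1-NORM] -/
theorem LevelRed.normB (H : LevelRed π R r) (u : (twoRed hqM π hπ).O) :
    ∃ h : TorsES.normAlong (heckeBetaBar Kb M q) (u : FN (M * q)) ∈ R.O,
      R.red ⟨_, h⟩ = ((twoRed hqM π hπ).red u).2 *
        FrobK.frobAut k q M • ((twoRed hqM π hπ).red u).1 := by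
  obtain ⟨-, ⟨w, hw, hN, hred⟩⟩ := twoRed_norm_red hqM π hπ (f := (u : FN (M * q)))
    (f₁ := (u : FN (M * q))) (f₂ := (u : FN (M * q))) (c₁ := 1) (c₂ := 1) one_ne_zero one_ne_zero
    (by rw [map_one, one_mul]) (by rw [map_one, one_mul]) u.2.1 u.2.2
  rw [one_pow, one_mul, map_one, one_mul] at hN
  have hmem : TorsES.normAlong (heckeBetaBar Kb M q) (u : FN (M * q)) ∈ R.O := by
    rw [hN]; exact (H.mem_iff w).2 hw
  refine ⟨hmem, ?_⟩
  apply Subtype.ext
  have hw' : (((⟨_, hmem⟩ : R.O) : FN M) : LaurentSeries Kb) ∈ bigO π := by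
    show ((TorsES.normAlong (heckeBetaBar Kb M q) (u : FN (M * q)) : FN M) : LaurentSeries Kb) ∈ _
    rw [hN]; exact hw
  rw [H.red_eq ⟨_, hmem⟩ hw']
  have e : (⟨(((⟨_, hmem⟩ : R.O) : FN M) : LaurentSeries Kb), hw'⟩ : bigO π) =
      ⟨(w : LaurentSeries Kb), hw⟩ := Subtype.ext (by
    show ((TorsES.normAlong (heckeBetaBar Kb M q) (u : FN (M * q)) : FN M) : LaurentSeries Kb) = _
    rw [hN])
  rw [e, hred]
  rfl

/-! ### constants -/

theorem LevelRed.nrm_const_mem (H : LevelRed π R r) (y : A) :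
    algebraMap Kb (FN M) (y : Kb) ∈ R.O := by
  rw [H.mem_iff]
  have : ((algebraMap Kb (FN M) (y : Kb) : FN M) : LaurentSeries Kb) = iota A (cA A y) := by
    rw [iota_cA]; rfl
  rw [this]; exact iota_mem_bigO π _

theorem LevelRed.nrm_red_const (H : LevelRed π R r) (y : A) :
    R.red ⟨_, H.nrm_const_mem π y⟩ = algebraMap k (Fb k M) (π y) := by
  apply Subtype.ext
  rw [H.red_eq _ ((H.mem_iff _).1 (H.nrm_const_mem π y)),
    bigRed_eq π _ (a := cA A y) (b := 1) (by simp) (by rw [iota_cA, map_one, mul_one]; rfl), pi_cA,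
    map_one, div_one]
  rfl

include hπ in
theorem LevelRed.nrm_mem_A (H : LevelRed π R r) {y : Kb} (h : algebraMap Kb (FN M) y ∈ R.O) :
    y ∈ A := by
  by_contra hc
  have hc' : y⁻¹ ∈ A := (A.mem_or_inv_mem y).resolve_left hc
  have hc0 : y ≠ 0 := by rintro rfl; exact hc A.zero_mem
  have h0 := H.nrm_red_const π ⟨y⁻¹, hc'⟩
  rw [residue_eq_zero_of_inv_not_mem hπ hc' (by rwa [inv_inv]), map_zero] at h0
  have h1 : (⟨algebraMap Kb (FN M) y, h⟩ : R.O) *
      ⟨algebraMap Kb (FN M) (y⁻¹), H.nrm_const_mem π ⟨y⁻¹, hc'⟩⟩ = 1 := by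
    apply Subtype.ext
    show algebraMap Kb (FN M) y * algebraMap Kb (FN M) y⁻¹ = 1
    rw [← map_mul, mul_inv_cancel₀ hc0, map_one]
  have := congrArg R.red h1
  rw [map_mul, h0, mul_zero, map_one] at this
  exact zero_ne_one this

theorem twoRed_nrm_const_mem (y : A) :
    algebraMap Kb (FN (M * q)) (y : Kb) ∈ (twoRed hqM π hπ).O := by
  rw [twoRed_O]; exact (RR hqM π hπ).const_mem y

theorem twoRed_nrm_red_const (y : A) :
    (twoRed hqM π hπ).red ⟨_, twoRed_nrm_const_mem hqM π hπ y⟩ =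
      (algebraMap k (Fb k M) (π y), algebraMap k (Fb k M) (π y)) := by
  rw [twoRed_red]
  exact (RR hqM π hπ).rd_const y

theorem frobAut_nrm_const (a : k) :
    FrobK.frobAut k q M • algebraMap k (Fb k M) a = algebraMap k (Fb k M) (a ^ q) := by
  rw [SemilinearAut.smul_algebraMap]
  rfl

/-- common part of the two [TRACE] statements -/
theorem LevelRed.nrm_exists_sub (H : LevelRed π R r) (θ : FN M →ₐ[Kb] FN (M * q))
    (hfin : FiniteAlong Kb θ) (s : Fb k M × Fb k M →+* Fb k M × Fb k M)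
    (hs : ∀ a : Fb k M, s (a, a) = (a, a))
    (hnorm : ∀ u : (twoRed hqM π hπ).O, ∃ h : TorsES.normAlong θ (u : FN (M * q)) ∈ R.O,
      R.red ⟨_, h⟩ = (s ((twoRed hqM π hπ).red u)).1 *
        FrobK.frobAut k q M • (s ((twoRed hqM π hπ).red u)).2)
    (n ψ : (twoRed hqM π hπ).O)
    (hn : (twoRed hqM π hπ).red n = 1) {c : Kb} (hc : c ∈ A) (hc' : c⁻¹ ∉ A) :
    ∃ φ' : R.O, TorsES.normAlong θ
        ((n : FN (M * q)) + algebraMap Kb (FN (M * q)) c * (ψ : FN (M * q))) -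
        TorsES.normAlong θ (n : FN (M * q)) =
      algebraMap Kb (FN M) c * (φ' : FN M) ∧ R.red φ' = (s ((twoRed hqM π hπ).red ψ)).1 := by
  letI := algebraAlong θ
  haveI : FiniteDimensional (FN M) (FN (M * q)) := hfin
  set a₁ := (s ((twoRed hqM π hπ).red ψ)).1 with ha₁
  set a₂ := (s ((twoRed hqM π hπ).red ψ)).2 with ha₂
  have hq2 : 2 ≤ q := hq.out.two_le
  have key := exists_norm_sub_eq R (n : FN (M * q)) (ψ : FN (M * q))
    ((1 + X * C a₁) * (1 + X ^ q * C (FrobK.frobAut k q M • a₂))) ?_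
    (c := c) (H.nrm_const_mem π ⟨c, hc⟩) ?_
  · obtain ⟨φ', h1, h2⟩ := key
    refine ⟨φ', ?_, ?_⟩
    · have e : algebraMap (FN M) (FN (M * q)) (algebraMap Kb (FN M) c) =
          algebraMap Kb (FN (M * q)) c := θ.commutes c
      rw [e] at h1
      exact h1
    · rw [h2]
      have : ((1 + X * C a₁) * (1 + X ^ q * C (FrobK.frobAut k q M • a₂)) : (Fb k M)[X]) =
          1 + X * C a₁ + X ^ q * (C (FrobK.frobAut k q M • a₂) * (1 + X * C a₁)) := by ring
      rw [this, coeff_add, coeff_add, coeff_one, coeff_X_mul, coeff_C_zero,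
        coeff_X_pow_mul', if_neg (by omega), if_neg (by omega)]
      simp
  · intro y hy
    have hyA : y ∈ A := H.nrm_mem_A π hπ hy
    obtain ⟨h, hr⟩ := hnorm (n + ⟨_, twoRed_nrm_const_mem hqM π hπ ⟨y, hyA⟩⟩ * ψ)
    have e : algebraMap (FN M) (FN (M * q)) (algebraMap Kb (FN M) y) =
        algebraMap Kb (FN (M * q)) y := θ.commutes y
    refine ⟨by rw [e]; exact h, ?_⟩
    have e2 : (⟨Algebra.norm (FN M) ((n : FN (M * q)) +
        algebraMap (FN M) (FN (M * q)) (algebraMap Kb (FN M) y) * (ψ : FN (M * q))),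
          by rw [e]; exact h⟩ : R.O) = ⟨_, h⟩ :=
      Subtype.ext (congrArg (fun z => Algebra.norm (FN M) ((n : FN (M * q)) + z * (ψ : FN (M * q)))) e)
    rw [e2, hr, map_add, map_mul, hn, twoRed_nrm_red_const, map_add, map_mul, map_one, hs]
    have e3 : (⟨algebraMap Kb (FN M) y, hy⟩ : R.O) = ⟨_, H.nrm_const_mem π ⟨y, hyA⟩⟩ := rfl
    rw [e3, H.nrm_red_const]
    simp only [Prod.fst_add, Prod.snd_add, Prod.fst_mul, Prod.snd_mul, Prod.fst_one, Prod.snd_one,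
      smul_add, smul_mul', smul_one, frobAut_nrm_const, eval_mul, eval_add, eval_C, eval_X,
      eval_pow, map_pow, eval_one]
    rfl
  · exact (H.nrm_red_const π ⟨c, hc⟩).trans
      (by rw [residue_eq_zero_of_inv_not_mem hπ hc hc', map_zero])

/-- [C1-TRACE] -/
theorem LevelRed.exists_normA_sub (H : LevelRed π R r) (n ψ : (twoRed hqM π hπ).O)
    (hn : (twoRed hqM π hπ).red n = 1) {c : Kb} (hc : c ∈ A) (hc' : c⁻¹ ∉ A) :
    ∃ φ' : R.O, TorsES.normAlong (heckeAlphaBar Kb M q)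
        ((n : FN (M * q)) + algebraMap Kb (FN (M * q)) c * (ψ : FN (M * q))) -
        TorsES.normAlong (heckeAlphaBar Kb M q) (n : FN (M * q)) =
      algebraMap Kb (FN M) c * (φ' : FN M) ∧ R.red φ' = ((twoRed hqM π hπ).red ψ).1 :=
  H.nrm_exists_sub hqM π hπ (heckeAlphaBar Kb M q) (GAL.HeckeInputs.finiteAlong_alpha M q)
    (RingHom.id _) (fun _ => rfl) (fun u => H.normA hqM π hπ u) n ψ hn hc hc'

/-- [C1-TRACE] -/
theorem LevelRed.exists_normB_sub (H : LevelRed π R r) (n ψ : (twoRed hqM π hπ).O)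
    (hn : (twoRed hqM π hπ).red n = 1) {c : Kb} (hc : c ∈ A) (hc' : c⁻¹ ∉ A) :
    ∃ φ' : R.O, TorsES.normAlong (heckeBetaBar Kb M q)
        ((n : FN (M * q)) + algebraMap Kb (FN (M * q)) c * (ψ : FN (M * q))) -
        TorsES.normAlong (heckeBetaBar Kb M q) (n : FN (M * q)) =
      algebraMap Kb (FN M) c * (φ' : FN M) ∧ R.red φ' = ((twoRed hqM π hπ).red ψ).2 :=
  H.nrm_exists_sub hqM π hπ (heckeBetaBar Kb M q) (GAL.HeckeInputs.finiteAlong_beta M q)
    (RingEquiv.prodComm : Fb k M × Fb k M ≃+* Fb k M × Fb k M).toRingHom (fun _ => rfl)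
    (fun u => H.normB hqM π hπ u) n ψ hn hc hc'

end Fermat.Agent.SS
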